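import Fermat.Agent.S36.Norm.Along
import Fermat.Agent.S36.Glue.Interface
import Fermat.Agent.GAL.Tors.Desc.IsFF
import Fermat.Agent.GAL.Igusa.RedLevel

/-!
# S36/E : the contract of route E (stable model of `X₀(M q²)`) and the final assembly

`A` a place of `Kbar` over `q ∤ M`, `k` its residue field, `F = FN (M q q)`, `a2, b2 : FN (M q) → F` the two
degeneracy maps.

* `EData A M q`   : the stable fibre: components `Comp SS J'` (`C_∞`, `C_0`, `MID_w`, `H_e`), nodes `Nd SS J`
  (`J` = labels of the nodes of `H_e` towards the middle components, `μ : J → J'`),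
  coordinate `x`, `IsPreNodal`, the action of inertia on the middle nodes;
* `ECover D φ πE rr` : the model of `X₀(M q)` below it, along `φ = a2` or `b2`;
* `EData.kill`    : `κ ∈ K_all` fixed by inertia with `α_* κ = β_* κ = 0` is killed by `q² - 1`   (block NORM);
* `kvNewInertia_of_contract` : Theorem X at level `M q²` from the contract and STEP-A.
-/

set_option autoImplicit false

noncomputable section

namespace Fermat.Agent.S36.E

open AlgebraicCurve ModularCurve Fermat.Agent.S24 Fermat.Agent.GAL Fermat.Agent.GAL.RED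
  Fermat.Agent.GAL.Hecke Fermat.Agent.DR.Abs Fermat.Agent.Lib.RR Fermat.Agent.S36.Abs
  Fermat.Agent.S36.Norm Fermat.Agent.DR

instance instIsFF_FN (N : ℕ) [NeZero N] : Lib.RR.IsFF Kbar (FN N) := Fermat.Agent.GAL.Desc.isFF_FF_Kbar N

/-- The Galois action on the function field of level `N`. -/
abbrev gal (N : ℕ) (σ : Kbar ≃ₐ[ℚ] Kbar) : SemilinearAut Kbar (FN N) :=
  arithmeticGalois (modularFunctionFieldFull N) σ

variable (A : ValuationSubring Kbar) (M q : ℕ) [NeZero M] [NeZero q]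

/-- the residue field of `A`. -/
abbrev kk : Type := IsLocalRing.ResidueField ↥A

instance : IsAlgClosed (kk A) := Fermat.Agent.GAL.Igusa.isAlgClosed_residueField A

/-- **The stable fibre of `X₀(M q²)` at `A`.** -/
structure EData where
  /-- the supersingular points -/
  SS : Type
  /-- the labels of the nodes of `H_e` towards the middle components -/
  J : Type
  /-- the middle components -/
  J' : Type
  [fSS : Fintype SS]
  [dSS : DecidableEq SS]
  [fJ : Fintype J]
  [nJ : Nonempty J]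
  [fJ' : Fintype J']
  /-- the node `(e, j)` lies on the middle component `μ j` -/
  μ : J → J'
  par : Function.Injective μ ∨ Even (q ^ 2 - 1)
  /-- the function fields of the components -/
  Fb : Comp SS J' → Type
  [fld : ∀ i, Field (Fb i)]
  [alg : ∀ i, Algebra (kk A) (Fb i)]
  [ff : ∀ i, Lib.RR.IsFF (kk A) (Fb i)]
  /-- the reductions -/
  T : MultiRed Kbar (FN (M * q * q)) (kk A) Fb
  /-- the coordinate -/
  x : FN (M * q * q)
  /-- the nodes -/
  N : NodeData (kk A) Fb (Nd SS J)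
  /-- the bound in `IsPreNodal` -/
  a₀ : ℕ
  nodal : IsPreNodal T x N a₀
  shape : Shape μ N
  /-- the ramification index of `MID_(μ j)` over the level `M` curve at the node `(e, j)` -/
  r : J → ℕ
  sum_r : ∑ j, r j = q - 1
  /-- inertia exchanges any two of the middle nodes of the `H_e`, simultaneously for all `e` -/
  inertia : ∀ j j' : J, j ≠ j' → ∃ σ ∈ A.inertiaSubgroupIn ℚ, ∃ (G : (∀ i, Fb i) → (∀ i, Fb i))
    (πE : Equiv.Perm (Nd SS J)), IsSymm T x N (gal (M * q * q) σ) G (RingHom.id (kk A)) πE ∧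
      (∀ e, πE (.inf e) = .inf e) ∧ (∀ e, πE (.mid e j) = .mid e j') ∧
        ∀ e, πE (.mid e j') = .mid e j

attribute [instance] EData.fSS EData.dSS EData.fJ EData.nJ EData.fJ' EData.fld EData.alg EData.ff

variable {A M q}

/-- **The model of `X₀(M q)` below the stable fibre**, along the degeneracy map `φ`. -/
structure ECover (D : EData A M q) (φ : FN (M * q) →ₐ[Kbar] FN (M * q * q))
    (πE : Nd D.SS D.J → Nd1 D.SS) (rr : Nd D.SS D.J → ℕ) where
  /-- the components -/
  ι1 : Type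
  /-- their function fields -/
  Fb1 : ι1 → Type
  [fld : ∀ a, Field (Fb1 a)]
  [alg : ∀ a, Algebra (kk A) (Fb1 a)]
  [ff : ∀ a, Lib.RR.IsFF (kk A) (Fb1 a)]
  /-- index sets of the components above -/
  J1 : ι1 → Type
  [fJ1 : ∀ a, Fintype (J1 a)]
  /-- the components above -/
  s : ∀ a, J1 a → Comp D.SS D.J'
  [algs : ∀ a j, Algebra (Fb1 a) (D.Fb (s a j))]
  /-- the reductions -/
  T1 : MultiRed Kbar (FN (M * q)) (kk A) Fb1
  /-- the nodes -/
  N1 : NodeData (kk A) Fb1 (Nd1 D.SS)
  /-- the coordinate -/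
  x1 : FN (M * q)
  map_x1 : φ x1 = D.x
  cover : CoverAlong φ s T1 D.T
  glued : NodesGlued T1 x1 N1
  nodeCover : NodeCover s N1 D.N πE rr
  shape1 : Shape1 N1

attribute [instance] ECover.fld ECover.alg ECover.ff ECover.fJ1 ECover.algs

/-- **Block NORM at the concrete level.** -/
theorem EData.kill (D : EData A M q) (hq : 1 ≤ q)
    (CA : ECover D (heckeAlphaBar Kbar (M * q) q) piA (rA q D.r))
    (CB : ECover D (heckeBetaBar Kbar (M * q) q) piB (rB q D.r)) {m : ℕ} (hm : (m : kk A) ≠ 0)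
    (κ : KV Kbar (FN (M * q * q)) m) (hκ : κ ∈ Kall D.T m)
    (hI : ∀ σ ∈ A.inertiaSubgroupIn ℚ, σ • κ = κ)
    (hα : alphaKV (M * q) q m κ = 0) (hβ : betaKV (M * q) q m κ = 0) :
    (q ^ 2 - 1) • κ = 0 := by
  refine main D.nodal hm q hq D.r D.sum_r D.shape D.par κ hκ ?_ ?_ ?_
  · intro δ hδ
    have h1 := D.nodal
    rw [← CA.map_x1] at h1 hδ
    exact relA_along q D.r _ (finiteAlong_alpha (M * q) q) h1 hm CA.cover CA.glued CA.nodeCover
      CA.shape1 hδ _ hα
  · intro δ hδ
    have h1 := D.nodal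
    rw [← CB.map_x1] at h1 hδ
    exact relB_along q D.r _ (finiteAlong_beta (M * q) q) h1 hm CB.cover CB.glued CB.nodeCover
      CB.shape1 hδ _ hβ
  · intro j j' hjj
    obtain ⟨σ, hσ, G, πE, h1, h2, h3⟩ := D.inertia j j' hjj
    exact ⟨gal (M * q * q) σ, G, πE, h1, hI σ hσ, h2, h3⟩

/-- **The contract of route E** at the place `A`, for the exponent `m`, with the constant `d₁` of STEP-A. -/
structure EContract (A : ValuationSubring Kbar) (M q : ℕ) [NeZero M] [NeZero q] (d₁ : ℕ) where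
  /-- the stable fibre -/
  D : EData A M q
  /-- the model below, along `α` -/
  CA : ECover D (heckeAlphaBar Kbar (M * q) q) piA (rA q D.r)
  /-- the model below, along `β` -/
  CB : ECover D (heckeBetaBar Kbar (M * q) q) piB (rB q D.r)
  /-- STEP-A -/
  stepA : ∀ (m : ℕ), (m : kk A) ≠ 0 → ∀ κ : KV Kbar (FN (M * q * q)) m,
    (∀ σ ∈ A.inertiaSubgroupIn ℚ, σ • κ = κ) → alphaKV (M * q) q m κ = 0 →
      betaKV (M * q) q m κ = 0 → d₁ • κ ∈ Kall D.T m

/-- a prime power `p ^ k`, `p ≠ q`, is invertible in the residue field of a place over `q`. -/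
theorem natCast_pow_ne_zero (A : ValuationSubring Kbar) {q p : ℕ} (hq : q.Prime) (hp : p.Prime)
    (hpq : q ≠ p) (hA : A.LiesOverPrime q) (k : ℕ) : ((p ^ k : ℕ) : kk A) ≠ 0 := by
  have hq0 : ((q : ℕ) : kk A) = 0 := by
    obtain ⟨ha, hmem⟩ := ValuationSubring.mem_nonunits_iff_exists_mem_maximalIdeal.mp hA
    have h1 : IsLocalRing.residue ↥A ⟨(q : Kbar), ha⟩ = 0 :=
      (IsLocalRing.residue_eq_zero_iff _).mpr hmem
    have h2 : (⟨(q : Kbar), ha⟩ : ↥A) = ((q : ℕ) : ↥A) := Subtype.ext (by simp)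
    rw [h2, map_natCast] at h1
    exact h1
  rw [Nat.cast_pow]
  apply pow_ne_zero
  intro hp0
  have hc : IsCoprime (q : ℤ) (p : ℤ) :=
    Nat.isCoprime_iff_coprime.mpr ((Nat.coprime_primes hq hp).mpr hpq)
  obtain ⟨a, b, hab⟩ := hc
  have h3 := congrArg (fun z : ℤ => (z : kk A)) hab
  simp only [Int.cast_add, Int.cast_mul, Int.cast_natCast, Int.cast_one, hq0, hp0, mul_zero,
    add_zero] at h3
  exact zero_ne_one h3

/-- **Theorem X at level `M q²`** from the contract. -/
theorem kvNewInertia_of_contract (M q p : ℕ) [NeZero M] [NeZero q] (hq : q.Prime) (hp : p.Prime)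
    (hpq : q ≠ p) (d₁ : ℕ) (hd₁ : d₁ ≠ 0)
    (H : ∀ A : ValuationSubring Kbar, A.LiesOverPrime q → Nonempty (EContract A M q d₁)) :
    KVNewInertia (M * q) q p := by
  have hq2 : q ^ 2 - 1 ≠ 0 := by
    have := hq.two_le
    have h4 : 4 ≤ q ^ 2 := by nlinarith
    omega
  refine ⟨(q ^ 2 - 1) * d₁, mul_ne_zero hq2 hd₁, fun k A hA x hI hα hβ => ?_⟩
  obtain ⟨C⟩ := H A hA
  have hm : ((p ^ k : ℕ) : kk A) ≠ 0 := natCast_pow_ne_zero A hq hp hpq hA k
  have h1 := C.stepA (p ^ k) hm x hI hα hβ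
  rw [mul_smul]
  refine C.D.kill hq.one_le C.CA C.CB hm _ h1 (fun σ hσ => ?_) ?_ ?_
  · rw [smul_comm, hI σ hσ]
  · rw [map_nsmul, hα, smul_zero]
  · rw [map_nsmul, hβ, smul_zero]

end Fermat.Agent.S36.E
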