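import Fermat.Agent.S36.Val.ValOver
import Fermat.Agent.S36.Geo.GEmb
import Fermat.Agent.S36.Norm.Tools.ResMap

/-!
# S36/E : the family of reductions attached to a family of valuation rings (honest residue fields)

* `ofVal V : MultiRed K F k (fun i => (V i).Res)` for `V : ι → ValOver A F`, `k` the residue field of `A`;
  `(ofVal V).R i = (V i).redData` by `rfl`;
* `compVal Vinf Vzero Vmid Vhor : Comp S J' → ValOver A F` : the family indexed by the components of the stable fibre;
* `GEmb.toValOver` : the valuation ring of a series embedding;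
* `resEquivOfEq` : two reduction data with the same valuation ring have the same residue field;
  `GEmb.resEquiv : G.toValOver.Res ≃ₐ[k] G.Fb`.
-/

set_option autoImplicit false

noncomputable section

namespace Fermat.Agent.S36.E

open Fermat.Agent.GAL Fermat.Agent.GAL.RED Fermat.Agent.DR.Abs Fermat.Agent.S36.Val
  Fermat.Agent.S36.Norm Fermat.Agent.S36.Geo Fermat.Agent.GAL.Gauss

section ofVal

variable {K : Type*} [Field K] {A : ValuationSubring K} {F : Type*} [Field F] [Algebra K F]
  {ι : Type*}

open Classical in
/-- **The family of reductions attached to a family of valuation rings over `A`.** -/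
def ofVal (V : ι → ValOver A F) :
    MultiRed K F (IsLocalRing.ResidueField ↥A) (fun i => (V i).Res) where
  R i := (V i).redData
  A := A
  redA a := if h : a ∈ A then IsLocalRing.residue ↥A ⟨a, h⟩ else 0
  A_eq _ := rfl
  redA_eq _ _ := rfl
  redA_surj c := by
    obtain ⟨⟨a, ha⟩, rfl⟩ := IsLocalRing.residue_surjective c
    exact ⟨a, ha, by rw [dif_pos ha]⟩

@[simp] theorem ofVal_R (V : ι → ValOver A F) (i : ι) : (ofVal V).R i = (V i).redData := rfl

@[simp] theorem ofVal_A (V : ι → ValOver A F) : (ofVal V).A = A := rfl

@[simp] theorem redData_O (V : ValOver A F) : V.redData.O = V.O := rfl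

@[simp] theorem redData_A (V : ValOver A F) : V.redData.A = A := rfl

theorem redData_red (V : ValOver A F) (f : F) : V.redData.red f = V.red f := rfl

theorem mem_ofVal_O (V : ι → ValOver A F) (y : F) : y ∈ (ofVal V).O ↔ ∀ i, y ∈ (V i).O := Iff.rfl

theorem ofVal_redA_of_mem (V : ι → ValOver A F) {a : K} (ha : a ∈ A) :
    (ofVal V).redA a = IsLocalRing.residue ↥A ⟨a, ha⟩ := dif_pos ha

/-- The family of valuation rings indexed by the components of the stable fibre. -/
def compVal {S J' : Type*} (Vinf Vzero : ValOver A F) (Vmid : J' → ValOver A F)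
    (Vhor : S → ValOver A F) : Comp S J' → ValOver A F
  | .inf => Vinf
  | .zero => Vzero
  | .mid w => Vmid w
  | .hor e => Vhor e

section compVal

variable {S J' : Type*} (Vinf Vzero : ValOver A F) (Vmid : J' → ValOver A F)
  (Vhor : S → ValOver A F)

@[simp] theorem compVal_inf : compVal Vinf Vzero Vmid Vhor .inf = Vinf := rfl
@[simp] theorem compVal_zero : compVal Vinf Vzero Vmid Vhor .zero = Vzero := rfl
@[simp] theorem compVal_mid (w : J') : compVal Vinf Vzero Vmid Vhor (.mid w) = Vmid w := rfl
@[simp] theorem compVal_hor (e : S) : compVal Vinf Vzero Vmid Vhor (.hor e) = Vhor e := rfl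

end compVal

end ofVal

section resEquiv

variable {K F k Fb Fb1 : Type*} [Field K] [Field F] [Algebra K F] [Field k] [Field Fb]
  [Algebra k Fb] [Field Fb1] [Algebra k Fb1]

theorem redHom_id {R1 : RedData K F k Fb1} {R : RedData K F k Fb} (hO : R.O = R1.O)
    (hA : R.A = R1.A) (hred : ∀ a, R.redA a = R1.redA a) : RedHom R1 R (RingHom.id F) where
  comap := by
    rw [← hO]
    ext y
    rfl
  const := fun a ha => by
    rw [RingHom.id_apply, R.red_algebraMap (by rw [hA]; exact ha), hred]

/-- Two reduction data with the same valuation ring (and the same reduction of the constants) have the same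
residue field. -/
def resEquivOfEq {R1 : RedData K F k Fb1} {R : RedData K F k Fb} (hO : R.O = R1.O)
    (hA : R.A = R1.A) (hred : ∀ a, R.redA a = R1.redA a) : Fb1 ≃ₐ[k] Fb :=
  (redHom_id hO hA hred).resEquiv Function.surjective_id

theorem resEquivOfEq_red {R1 : RedData K F k Fb1} {R : RedData K F k Fb} (hO : R.O = R1.O)
    (hA : R.A = R1.A) (hred : ∀ a, R.redA a = R1.redA a) (y : F) :
    resEquivOfEq hO hA hred (R1.red y) = R.red y :=
  (redHom_id hO hA hred).resEquiv_red Function.surjective_id y

end resEquiv

section GEmb

variable {K : Type} [Field K] {A : ValuationSubring K} {F : Type} [Field F] [Algebra K F]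

/-- The valuation ring of a series embedding. -/
def _root_.Fermat.Agent.S36.Geo.GEmb.toValOver (G : GEmb A F) : ValOver A F where
  O := G.O
  comap_eq := by
    ext a
    show G.φ (algebraMap K F a) ∈ gRing A ↔ a ∈ A
    rw [G.φ_algebraMap]
    exact C_mem_gRing_iff A a

@[simp] theorem toValOver_O (G : GEmb A F) : G.toValOver.O = G.O := rfl

/-- The honest residue field of a series embedding is the field `G.Fb` of series. -/
def _root_.Fermat.Agent.S36.Geo.GEmb.resEquiv (G : GEmb A F) :
    G.toValOver.Res ≃ₐ[IsLocalRing.ResidueField ↥A] ↥G.Fb :=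
  resEquivOfEq (R1 := G.toValOver.redData) (R := G.redData) rfl rfl (fun _ => rfl)

theorem resEquiv_red (G : GEmb A F) (y : F) :
    G.resEquiv (G.toValOver.redData.red y) = G.redData.red y :=
  resEquivOfEq_red (R1 := G.toValOver.redData) (R := G.redData) rfl rfl (fun _ => rfl) y

end GEmb

end Fermat.Agent.S36.E
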